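/-
S25lib / Hilb / Push  (helper5)  --  Project L (S25), block (I3), pure algebra.
The functor of ideals of `A_R := R ⊗[k] A`:  `push φ I := I·A_{R'}` for `φ : R →ₐ[k] R'`, functoriality,
and the base-change isomorphism `R' ⊗[R] (A_R ⧸ I) ≃ A_{R'} ⧸ push φ I`.
-/
import Mathlib

set_option autoImplicit false

noncomputable section

namespace Fermat.Agent.S25lib.Hilb

open TensorProduct

universe u v w₁ w₂ w₃

variable (k : Type u) [CommRing k] (A : Type v) [CommRing A] [Algebra k A]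

section Push

variable {R : Type w₁} [CommRing R] [Algebra k R] {R' : Type w₂} [CommRing R'] [Algebra k R']
  {R'' : Type w₃} [CommRing R''] [Algebra k R'']

/-- the base-change homomorphism `A_R → A_{R'}` of `φ : R →ₐ[k] R'` -/
abbrev bc (φ : R →ₐ[k] R') : (R ⊗[k] A) →ₐ[k] (R' ⊗[k] A) :=
  Algebra.TensorProduct.map φ (AlgHom.id k A)

theorem bc_tmul (φ : R →ₐ[k] R') (r : R) (a : A) : bc k A φ (r ⊗ₜ a) = φ r ⊗ₜ a := by
  simp [bc]

theorem bc_id : bc k A (AlgHom.id k R) = AlgHom.id k (R ⊗[k] A) := by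
  ext <;> simp [bc]

theorem bc_comp (φ : R →ₐ[k] R') (ψ : R' →ₐ[k] R'') :
    bc k A (ψ.comp φ) = (bc k A ψ).comp (bc k A φ) := by
  ext <;> simp [bc]

/-- `bc φ` is `φ`-semilinear -/
theorem bc_smul (φ : R →ₐ[k] R') (r : R) (x : R ⊗[k] A) :
    bc k A φ (r • x) = φ r • bc k A φ x := by
  induction x using TensorProduct.induction_on with
  | zero => simp
  | tmul s a => simp [bc, TensorProduct.smul_tmul']
  | add x y hx hy => simp only [smul_add, map_add, hx, hy]

/-- the extension `I·A_{R'}` of an ideal of `A_R` along `φ : R →ₐ[k] R'` -/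
def push (φ : R →ₐ[k] R') (I : Ideal (R ⊗[k] A)) : Ideal (R' ⊗[k] A) :=
  I.map (bc k A φ)

theorem push_id (I : Ideal (R ⊗[k] A)) : push k A (AlgHom.id k R) I = I := by
  unfold push
  rw [bc_id]
  exact Ideal.map_id I

theorem push_comp (φ : R →ₐ[k] R') (ψ : R' →ₐ[k] R'') (I : Ideal (R ⊗[k] A)) :
    push k A (ψ.comp φ) I = push k A ψ (push k A φ I) := by
  unfold push
  rw [bc_comp, Ideal.map_mapₐ]

theorem push_mono (φ : R →ₐ[k] R') {I J : Ideal (R ⊗[k] A)} (h : I ≤ J) :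
    push k A φ I ≤ push k A φ J :=
  Ideal.map_mono h

theorem mem_push_of_mem (φ : R →ₐ[k] R') {I : Ideal (R ⊗[k] A)} {x : R ⊗[k] A} (hx : x ∈ I) :
    bc k A φ x ∈ push k A φ I :=
  Ideal.mem_map_of_mem _ hx

/-- the induced map on quotients `A_R ⧸ I → A_{R'} ⧸ push φ I` -/
def quotMap (φ : R →ₐ[k] R') (I : Ideal (R ⊗[k] A)) :
    ((R ⊗[k] A) ⧸ I) →ₐ[k] ((R' ⊗[k] A) ⧸ push k A φ I) :=
  Ideal.quotientMapₐ (push k A φ I) (bc k A φ) (Ideal.le_comap_map)

@[simp]
theorem quotMap_mk (φ : R →ₐ[k] R') (I : Ideal (R ⊗[k] A)) (x : R ⊗[k] A) :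
    quotMap k A φ I (Ideal.Quotient.mk I x) = Ideal.Quotient.mk _ (bc k A φ x) := rfl

theorem quotMap_smul (φ : R →ₐ[k] R') (I : Ideal (R ⊗[k] A)) (r : R) (x : (R ⊗[k] A) ⧸ I) :
    quotMap k A φ I (r • x) = φ r • quotMap k A φ I x := by
  obtain ⟨x, rfl⟩ := Ideal.Quotient.mk_surjective x
  have h1 : r • (Ideal.Quotient.mk I x) = Ideal.Quotient.mk I (r • x) := rfl
  rw [h1, quotMap_mk, bc_smul, quotMap_mk]
  rfl

end Push

section BaseChange

variable {R : Type w₁} [CommRing R] [Algebra k R] {R' : Type w₂} [CommRing R'] [Algebra k R']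
  [Algebra R R'] [IsScalarTower k R R']

theorem cancelBaseChange_one_tmul (x : R ⊗[k] A) :
    Algebra.TensorProduct.cancelBaseChange k R R' R' A ((1 : R') ⊗ₜ[R] x) =
      bc k A (IsScalarTower.toAlgHom k R R') x := by
  induction x using TensorProduct.induction_on with
  | zero => simp
  | tmul r a => simp [bc, Algebra.smul_def]
  | add x y hx hy => simp only [TensorProduct.tmul_add, map_add, hx, hy]

theorem map_includeRight_map_cancel (I : Ideal (R ⊗[k] A)) :
    push k A (IsScalarTower.toAlgHom k R R') I =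
      (I.map (Algebra.TensorProduct.includeRight (R := R) (A := R') (B := R ⊗[k] A))).map
        ((Algebra.TensorProduct.cancelBaseChange k R R' R' A :
          R' ⊗[R] (R ⊗[k] A) ≃ₐ[R'] R' ⊗[k] A) : R' ⊗[R] (R ⊗[k] A) →+* R' ⊗[k] A) := by
  unfold push
  apply le_antisymm
  · rw [Ideal.map_le_iff_le_comap]
    intro x hx
    rw [Ideal.mem_comap, ← cancelBaseChange_one_tmul]
    exact Ideal.mem_map_of_mem _ (Ideal.mem_map_of_mem _ hx)
  · rw [Ideal.map_le_iff_le_comap, Ideal.map_le_iff_le_comap]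
    intro x hx
    rw [Ideal.mem_comap, Ideal.mem_comap]
    have := cancelBaseChange_one_tmul (R' := R') k A x
    rw [Algebra.TensorProduct.includeRight_apply]
    erw [this]
    exact Ideal.mem_map_of_mem _ hx

/-- **Base change of the quotient**: `R' ⊗[R] (A_R ⧸ I) ≃ A_{R'} ⧸ I·A_{R'}`. -/
def pushEquiv (I : Ideal (R ⊗[k] A)) :
    R' ⊗[R] ((R ⊗[k] A) ⧸ I) ≃ₐ[R']
      ((R' ⊗[k] A) ⧸ push k A (IsScalarTower.toAlgHom k R R') I) :=
  (Algebra.TensorProduct.tensorQuotientEquiv (R := R) R' (R ⊗[k] A) R' I).trans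
    (Ideal.quotientEquivAlg _ _ (Algebra.TensorProduct.cancelBaseChange k R R' R' A)
      (map_includeRight_map_cancel k A I))

theorem pushEquiv_tmul (I : Ideal (R ⊗[k] A)) (r : R') (x : R ⊗[k] A) :
    pushEquiv k A I (r ⊗ₜ[R] Ideal.Quotient.mk I x) =
      r • Ideal.Quotient.mk _ (bc k A (IsScalarTower.toAlgHom k R R') x) := by
  have h : pushEquiv k A I (r ⊗ₜ[R] Ideal.Quotient.mk I x) =
      Ideal.Quotient.mk _ (Algebra.TensorProduct.cancelBaseChange k R R' R' A (r ⊗ₜ[R] x)) := rfl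
  rw [h]
  have h2 : r ⊗ₜ[R] x = r • ((1 : R') ⊗ₜ[R] x) := by
    rw [TensorProduct.smul_tmul', smul_eq_mul, mul_one]
  rw [h2, map_smul, cancelBaseChange_one_tmul]
  rfl

end BaseChange

end Fermat.Agent.S25lib.Hilb
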