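/-
S25lib / Hilb / Framed  (helper5)  --  Project L (S25), block (I3), pure algebra.
`β`-framed ideals of `A_R = R ⊗[k] A` (the images of `1 ⊗ β i` form an `R`-basis of `A_R ⧸ I`)
are the same thing as retraction data `p : A →ₗ[k] R^g` with `p (β i) = e_i` and
`p (x y) = ∑ i, p(y)_i • p (x β_i)` (ideal kernel); both are functorial in `R` and the dictionary is natural.
-/
import Fermat.Agent.S25lib.Hilb.Push

set_option autoImplicit false

noncomputable section

namespace Fermat.Agent.S25lib.Hilb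

open TensorProduct

universe u v w₁ w₂

variable {k : Type u} [CommRing k] {A : Type v} [CommRing A] [Algebra k A] {g : ℕ} (β : Fin g → A)

section Defs

variable {R : Type w₁} [CommRing R] [Algebra k R]

/-- the lift `c ↦ ∑ i, c i ⊗ β i` of a coordinate vector to `A_R` -/
def frameLift : (Fin g → R) →ₗ[R] (R ⊗[k] A) :=
  Fintype.linearCombination R (fun i => (1 : R) ⊗ₜ[k] β i)

theorem frameLift_apply (c : Fin g → R) :
    frameLift (k := k) β c = ∑ i, c i • ((1 : R) ⊗ₜ[k] β i) := rfl

theorem frameLift_apply' (c : Fin g → R) :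
    frameLift (k := k) β c = ∑ i, c i ⊗ₜ[k] β i := by
  rw [frameLift_apply]
  refine Finset.sum_congr rfl fun i _ => ?_
  rw [TensorProduct.smul_tmul', smul_eq_mul, mul_one]

theorem frameLift_single (i : Fin g) :
    frameLift (k := k) (R := R) β (Pi.single i 1) = (1 : R) ⊗ₜ[k] β i := by
  unfold frameLift
  rw [Fintype.linearCombination_apply_single, one_smul]

/-- the framing map `R^g → A_R ⧸ I`, `c ↦ ∑ i, c i • [1 ⊗ β i]` -/
def frameMap (I : Ideal (R ⊗[k] A)) : (Fin g → R) →ₗ[R] ((R ⊗[k] A) ⧸ I) :=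
  (Ideal.Quotient.mkₐ R I).toLinearMap ∘ₗ frameLift β

theorem frameMap_apply (I : Ideal (R ⊗[k] A)) (c : Fin g → R) :
    frameMap β I c = Ideal.Quotient.mk I (frameLift β c) := rfl

/-- `I` is `β`-framed: the classes of `1 ⊗ β i` form an `R`-basis of `A_R ⧸ I` -/
def IsFramed (I : Ideal (R ⊗[k] A)) : Prop :=
  Function.Bijective (frameMap β I)

variable (k) in
/-- retraction data: a `k`-linear `p : A → R^g` with `p (β i) = e_i` whose `R`-linear extension to
`A_R` has an ideal as kernel -/
@[ext]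
structure Retr (R : Type w₁) [CommRing R] [Algebra k R] where
  /-- the coordinates of the class of `1 ⊗ x` -/
  p : A →ₗ[k] (Fin g → R)
  frame : ∀ i, p (β i) = Pi.single i 1
  mul : ∀ x y, p (x * y) = ∑ i, p y i • p (x * β i)

end Defs

namespace Retr

variable {β}
variable {R : Type w₁} [CommRing R] [Algebra k R] (ρ : Retr k β R)

/-- the `R`-linear extension `A_R → R^g` -/
def π : (R ⊗[k] A) →ₗ[R] (Fin g → R) := ρ.p.liftBaseChange R

@[simp]
theorem π_tmul (r : R) (a : A) : ρ.π (r ⊗ₜ[k] a) = r • ρ.p a := rfl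

theorem π_frameLift (c : Fin g → R) : ρ.π (frameLift β c) = c := by
  rw [frameLift_apply, map_sum]
  simp only [map_smul, π_tmul, one_smul, ρ.frame]
  ext j
  simp [Finset.sum_apply, Pi.single_apply]

theorem π_mul (x y : R ⊗[k] A) :
    ρ.π (x * y) = ∑ i, ρ.π y i • ρ.π (x * ((1 : R) ⊗ₜ[k] β i)) := by
  induction y using TensorProduct.induction_on with
  | zero => simp
  | add y₁ y₂ h₁ h₂ =>
    rw [mul_add, map_add, h₁, h₂, ← Finset.sum_add_distrib]
    refine Finset.sum_congr rfl fun i _ => ?_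
    rw [map_add, Pi.add_apply, add_smul]
  | tmul s b =>
    induction x using TensorProduct.induction_on with
    | zero => simp
    | add x₁ x₂ h₁ h₂ =>
      rw [add_mul, map_add, h₁, h₂, ← Finset.sum_add_distrib]
      refine Finset.sum_congr rfl fun i _ => ?_
      rw [add_mul, map_add, smul_add]
    | tmul r a =>
      simp only [Algebra.TensorProduct.tmul_mul_tmul, π_tmul, mul_one, ρ.mul a b, Pi.smul_apply,
        smul_eq_mul, Finset.smul_sum]
      refine Finset.sum_congr rfl fun i _ => ?_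
      simp only [smul_smul]
      congr 1
      ring

/-- the kernel of `π`, an ideal of `A_R` -/
def ideal : Ideal (R ⊗[k] A) where
  carrier := {x | ρ.π x = 0}
  add_mem' {x y} hx hy := by
    simp only [Set.mem_ofPred_eq] at hx hy ⊢
    rw [map_add, hx, hy, add_zero]
  zero_mem' := by simp
  smul_mem' c x hx := by
    simp only [Set.mem_ofPred_eq, smul_eq_mul] at hx ⊢
    rw [ρ.π_mul, hx]
    simp

theorem mem_ideal {x : R ⊗[k] A} : x ∈ ρ.ideal ↔ ρ.π x = 0 := Iff.rfl

theorem sub_frameLift_mem (x : R ⊗[k] A) : x - frameLift β (ρ.π x) ∈ ρ.ideal := by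
  rw [mem_ideal, map_sub, π_frameLift, sub_self]

theorem isFramed : IsFramed β ρ.ideal := by
  constructor
  · intro c d h
    rw [frameMap_apply, frameMap_apply, Ideal.Quotient.eq, mem_ideal, map_sub, π_frameLift,
      π_frameLift, sub_eq_zero] at h
    exact h
  · intro y
    obtain ⟨x, rfl⟩ := Ideal.Quotient.mk_surjective y
    refine ⟨ρ.π x, ?_⟩
    rw [frameMap_apply, eq_comm, Ideal.Quotient.eq]
    exact ρ.sub_frameLift_mem x

end Retr

namespace IsFramed

variable {β}
variable {R : Type w₁} [CommRing R] [Algebra k R] {I : Ideal (R ⊗[k] A)} (h : IsFramed β I)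

/-- the framing isomorphism `R^g ≃ A_R ⧸ I` -/
def equiv : (Fin g → R) ≃ₗ[R] ((R ⊗[k] A) ⧸ I) := LinearEquiv.ofBijective (frameMap β I) h

theorem equiv_apply (c : Fin g → R) : h.equiv c = Ideal.Quotient.mk I (frameLift β c) := rfl

/-- the coordinates `A_R → R^g` of the class of `x` in the basis `β` -/
def coord : (R ⊗[k] A) →ₗ[R] (Fin g → R) :=
  h.equiv.symm.toLinearMap ∘ₗ (Ideal.Quotient.mkₐ R I).toLinearMap

theorem coord_apply (x : R ⊗[k] A) : h.coord x = h.equiv.symm (Ideal.Quotient.mk I x) := rfl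

theorem mk_frameLift_coord (x : R ⊗[k] A) :
    Ideal.Quotient.mk I (frameLift β (h.coord x)) = Ideal.Quotient.mk I x := by
  rw [← h.equiv_apply, coord_apply, LinearEquiv.apply_symm_apply]

theorem coord_frameLift (c : Fin g → R) : h.coord (frameLift β c) = c := by
  rw [coord_apply, ← h.equiv_apply, LinearEquiv.symm_apply_apply]

theorem coord_eq_zero_iff {x : R ⊗[k] A} : h.coord x = 0 ↔ x ∈ I := by
  rw [coord_apply, LinearEquiv.map_eq_zero_iff, Ideal.Quotient.eq_zero_iff_mem]

theorem sub_frameLift_mem (x : R ⊗[k] A) : x - frameLift β (h.coord x) ∈ I := by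
  rw [← Ideal.Quotient.eq, mk_frameLift_coord]

theorem coord_eq_iff {x y : R ⊗[k] A} : h.coord x = h.coord y ↔ x - y ∈ I := by
  rw [← sub_eq_zero, ← map_sub, coord_eq_zero_iff]

theorem mul_frameLift (x : R ⊗[k] A) (c : Fin g → R) :
    x * frameLift β c = ∑ i, c i • (x * ((1 : R) ⊗ₜ[k] β i)) := by
  rw [frameLift_apply, Finset.mul_sum]
  refine Finset.sum_congr rfl fun i _ => ?_
  rw [mul_smul_comm]

/-- the retraction datum of a framed ideal -/
def retr : Retr k β R where
  p := (h.coord.restrictScalars k) ∘ₗ (TensorProduct.mk k R A 1)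
  frame i := by
    simp only [LinearMap.coe_comp, LinearMap.coe_restrictScalars, Function.comp_apply,
      TensorProduct.mk_apply]
    rw [← frameLift_single, coord_frameLift]
  mul x y := by
    simp only [LinearMap.coe_comp, LinearMap.coe_restrictScalars, Function.comp_apply,
      TensorProduct.mk_apply]
    have h1 : ∑ i, h.coord ((1 : R) ⊗ₜ[k] y) i • h.coord ((1 : R) ⊗ₜ[k] (x * β i)) =
        h.coord (((1 : R) ⊗ₜ[k] x) * frameLift β (h.coord ((1 : R) ⊗ₜ[k] y))) := by
      rw [mul_frameLift, map_sum]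
      refine Finset.sum_congr rfl fun i _ => ?_
      rw [map_smul, Algebra.TensorProduct.tmul_mul_tmul, mul_one]
    rw [h1, coord_eq_iff]
    have h2 : (1 : R) ⊗ₜ[k] (x * y) - (1 : R) ⊗ₜ[k] x * frameLift β (h.coord ((1 : R) ⊗ₜ[k] y)) =
        ((1 : R) ⊗ₜ[k] x) * ((1 : R) ⊗ₜ[k] y - frameLift β (h.coord ((1 : R) ⊗ₜ[k] y))) := by
      rw [mul_sub, Algebra.TensorProduct.tmul_mul_tmul, mul_one]
    rw [h2]
    exact I.mul_mem_left _ (h.sub_frameLift_mem _)

theorem retr_p_apply (x : A) : h.retr.p x = h.coord ((1 : R) ⊗ₜ[k] x) := rfl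

theorem retr_π : h.retr.π = h.coord := by
  apply TensorProduct.AlgebraTensorModule.curry_injective
  ext a
  simp [Retr.π, retr_p_apply]

theorem retr_ideal : h.retr.ideal = I := by
  ext x
  rw [Retr.mem_ideal, retr_π, coord_eq_zero_iff]

end IsFramed

namespace Retr

variable {β}
variable {R : Type w₁} [CommRing R] [Algebra k R] (ρ : Retr k β R)

theorem isFramed_coord : ρ.isFramed.coord = ρ.π := by
  refine LinearMap.ext fun x => ?_
  have h1 := ρ.isFramed.sub_frameLift_mem x
  rw [mem_ideal, map_sub, π_frameLift, sub_eq_zero] at h1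
  exact h1.symm

theorem isFramed_retr : ρ.isFramed.retr = ρ := by
  ext x : 3
  rw [IsFramed.retr_p_apply, isFramed_coord, π_tmul, one_smul]

end Retr

/-- **Framed ideals = retraction data.** -/
def framedEquivRetr {R : Type w₁} [CommRing R] [Algebra k R] :
    {I : Ideal (R ⊗[k] A) // IsFramed β I} ≃ Retr k β R where
  toFun I := I.2.retr
  invFun ρ := ⟨ρ.ideal, ρ.isFramed⟩
  left_inv I := Subtype.ext I.2.retr_ideal
  right_inv ρ := ρ.isFramed_retr

section Functoriality

variable {β}
variable {R : Type w₁} [CommRing R] [Algebra k R] {R' : Type w₂} [CommRing R'] [Algebra k R']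

/-- functoriality of retraction data in `R` -/
def Retr.map (φ : R →ₐ[k] R') (ρ : Retr k β R) : Retr k β R' where
  p := (φ.toLinearMap.compLeft (Fin g)) ∘ₗ ρ.p
  frame i := by
    ext j
    simp [ρ.frame, Pi.single_apply, apply_ite φ]
  mul x y := by
    ext j
    simp only [LinearMap.coe_comp, Function.comp_apply, LinearMap.compLeft_apply,
      AlgHom.toLinearMap_apply, ρ.mul x y, Finset.sum_apply, Pi.smul_apply, smul_eq_mul, map_sum,
      map_mul]

theorem Retr.map_p_apply (φ : R →ₐ[k] R') (ρ : Retr k β R) (x : A) (i : Fin g) :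
    (ρ.map φ).p x i = φ (ρ.p x i) := rfl

theorem Retr.map_π_bc (φ : R →ₐ[k] R') (ρ : Retr k β R) (x : R ⊗[k] A) (i : Fin g) :
    (ρ.map φ).π (bc k A φ x) i = φ (ρ.π x i) := by
  induction x using TensorProduct.induction_on with
  | zero => simp
  | add x y hx hy => simp only [map_add, Pi.add_apply, hx, hy]
  | tmul r a => simp [bc, Retr.map_p_apply]

theorem Retr.sub_frameLift_mem_push (φ : R →ₐ[k] R') (ρ : Retr k β R) (y : R' ⊗[k] A) :
    y - frameLift β ((ρ.map φ).π y) ∈ push k A φ ρ.ideal := by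
  induction y using TensorProduct.induction_on with
  | zero => simp
  | add x y hx hy =>
    have : x + y - frameLift β ((ρ.map φ).π (x + y)) =
        (x - frameLift β ((ρ.map φ).π x)) + (y - frameLift β ((ρ.map φ).π y)) := by
      rw [map_add, map_add]; abel
    rw [this]
    exact Ideal.add_mem _ hx hy
  | tmul r a =>
    have h1 : r ⊗ₜ[k] a - frameLift β ((ρ.map φ).π (r ⊗ₜ[k] a)) =
        (r ⊗ₜ[k] (1 : A)) * bc k A φ ((1 : R) ⊗ₜ[k] a - frameLift β (ρ.π ((1 : R) ⊗ₜ[k] a))) := by
      rw [map_sub, bc_tmul, map_one, mul_sub, Algebra.TensorProduct.tmul_mul_tmul, mul_one, one_mul]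
      congr 1
      rw [frameLift_apply', frameLift_apply', map_sum, Finset.mul_sum]
      refine Finset.sum_congr rfl fun i _ => ?_
      rw [bc_tmul, Algebra.TensorProduct.tmul_mul_tmul, one_mul]
      simp [Retr.map_p_apply]
    rw [h1]
    exact Ideal.mul_mem_left _ _ (mem_push_of_mem k A φ (ρ.sub_frameLift_mem _))

theorem Retr.map_ideal (φ : R →ₐ[k] R') (ρ : Retr k β R) :
    (ρ.map φ).ideal = push k A φ ρ.ideal := by
  apply le_antisymm
  · intro y hy
    have h1 := ρ.sub_frameLift_mem_push φ y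
    rw [Retr.mem_ideal] at hy
    rwa [hy, map_zero, sub_zero] at h1
  · unfold push
    rw [Ideal.map_le_iff_le_comap]
    intro x hx
    rw [Ideal.mem_comap, Retr.mem_ideal]
    ext i
    rw [Retr.map_π_bc, (Retr.mem_ideal ρ).1 hx]
    simp

/-- **Framed ideals are stable under base change.** -/
theorem IsFramed.push {I : Ideal (R ⊗[k] A)} (h : IsFramed β I) (φ : R →ₐ[k] R') :
    IsFramed β (Hilb.push k A φ I) := by
  have h1 := (h.retr.map φ).isFramed
  rwa [Retr.map_ideal, h.retr_ideal] at h1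

theorem IsFramed.push_retr {I : Ideal (R ⊗[k] A)} (h : IsFramed β I) (φ : R →ₐ[k] R') :
    (h.push φ).retr = h.retr.map φ := by
  have h1 : (⟨Hilb.push k A φ I, h.push φ⟩ : {I : Ideal (R' ⊗[k] A) // IsFramed β I}) =
      ⟨(h.retr.map φ).ideal, (h.retr.map φ).isFramed⟩ := by
    apply Subtype.ext
    simp only [Retr.map_ideal, h.retr_ideal]
  have h2 := congrArg (framedEquivRetr β) h1
  exact h2.trans (h.retr.map φ).isFramed_retr

end Functoriality

end Fermat.Agent.S25lib.Hilb
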