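/-
S25lib / Hilb / SurjLocus  (helper5)  --  Project L (S25), block (I3)/(H4), pure algebra.
The locus where a linear map `F : M → N` into a FINITE module is surjective:
`surjLocus F = (Supp coker F)ᶜ ⊆ Spec R` is open and is "the" open subfunctor:
for every `R`-algebra `S`, `F ⊗ S` is surjective iff `Spec S → Spec R` lands in `surjLocus F`.
If `M`, `N` are finite flat of the same rank, surjective = bijective (`bijective_baseChange_iff`).
-/
import Mathlib

set_option autoImplicit false

noncomputable section

namespace Fermat.Agent.S25lib.Hilb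

open TensorProduct

universe u v w

section Support

variable {R : Type u} [CommRing R] (C : Type v) [AddCommGroup C] [Module R C]
variable (S : Type w) [CommRing S] [Algebra R S]

/-- `Supp_S (S ⊗ C) ⊆ f⁻¹ Supp_R C` (no finiteness needed) -/
theorem comap_mem_support_of_mem_support_baseChange (q : PrimeSpectrum S)
    (hq : q ∈ Module.support S (S ⊗[R] C)) :
    PrimeSpectrum.comap (algebraMap R S) q ∈ Module.support R C := by
  by_contra hp
  rw [Module.notMem_support_iff'] at hp
  rw [Module.mem_support_iff'] at hq
  obtain ⟨x, hx⟩ := hq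
  have key : ∀ x : S ⊗[R] C, ∃ r : R, algebraMap R S r ∉ q.asIdeal ∧ algebraMap R S r • x = 0 := by
    intro x
    induction x using TensorProduct.induction_on with
    | zero => exact ⟨1, by rw [map_one]; exact q.2.one_notMem, smul_zero _⟩
    | tmul s c =>
      obtain ⟨r, hr, hrc⟩ := hp c
      refine ⟨r, hr, ?_⟩
      rw [algebraMap_smul]
      have : r • (s ⊗ₜ[R] c) = s ⊗ₜ[R] (r • c) := by
        rw [TensorProduct.tmul_smul]
      rw [this, hrc, TensorProduct.tmul_zero]
    | add x y hx hy =>
      obtain ⟨r, hr, hrx⟩ := hx
      obtain ⟨r', hr', hry⟩ := hy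
      refine ⟨r * r', ?_, ?_⟩
      · rw [map_mul]
        exact fun h => (q.2.mem_or_mem h).elim hr hr'
      · rw [smul_add, map_mul, mul_smul (algebraMap R S r) (algebraMap R S r') y, hry, smul_zero,
          add_zero, mul_comm, mul_smul, hrx, smul_zero]
  obtain ⟨r, hr, hrx⟩ := key x
  exact hx _ hr hrx

/-- `f⁻¹ Supp_R C ⊆ Supp_S (S ⊗ C)` for FINITE `C`, in the form needed below -/
theorem notMem_support_of_subsingleton_baseChange [Module.Finite R C]
    [Subsingleton (S ⊗[R] C)] (q : PrimeSpectrum S) :
    PrimeSpectrum.comap (algebraMap R S) q ∉ Module.support R C := by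
  intro hp
  set p := PrimeSpectrum.comap (algebraMap R S) q with hpdef
  rw [Module.mem_support_iff_nontrivial_residueField_tensorProduct] at hp
  -- the residue field extension `κ(p) → κ(q)`
  let φ : p.asIdeal.ResidueField →+* q.asIdeal.ResidueField :=
    Ideal.ResidueField.map p.asIdeal q.asIdeal (algebraMap R S) rfl
  let _ : Algebra p.asIdeal.ResidueField q.asIdeal.ResidueField := φ.toAlgebra
  have : IsScalarTower R p.asIdeal.ResidueField q.asIdeal.ResidueField :=
    IsScalarTower.of_algebraMap_eq' <| by
      ext r
      simp only [RingHom.comp_apply]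
      rw [RingHom.algebraMap_toAlgebra]
      rw [Ideal.ResidueField.map_algebraMap p.asIdeal q.asIdeal (algebraMap R S) rfl r]
      exact IsScalarTower.algebraMap_apply R S q.asIdeal.ResidueField r
  -- `κ(q) ⊗_κ(p) (κ(p) ⊗_R C)` is nontrivial
  have h1 : Nontrivial (q.asIdeal.ResidueField ⊗[p.asIdeal.ResidueField]
      (p.asIdeal.ResidueField ⊗[R] C)) :=
    (Module.FaithfullyFlat.nontrivial_tensorProduct_iff_right _ _).2 hp
  -- but it is `κ(q) ⊗_R C = κ(q) ⊗_S (S ⊗_R C) = 0`
  have e1 := TensorProduct.AlgebraTensorModule.cancelBaseChange R p.asIdeal.ResidueField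
    q.asIdeal.ResidueField q.asIdeal.ResidueField C
  have e2 := TensorProduct.AlgebraTensorModule.cancelBaseChange R S
    q.asIdeal.ResidueField q.asIdeal.ResidueField C
  have h2 : Subsingleton (q.asIdeal.ResidueField ⊗[S] (S ⊗[R] C)) := inferInstance
  have h3 : Subsingleton (q.asIdeal.ResidueField ⊗[R] C) := e2.symm.toEquiv.subsingleton
  have h4 : Subsingleton (q.asIdeal.ResidueField ⊗[p.asIdeal.ResidueField]
      (p.asIdeal.ResidueField ⊗[R] C)) := e1.toEquiv.subsingleton
  exact not_subsingleton _ h4

/-- **`S ⊗ C = 0` iff `Spec S → Spec R` misses `Supp C`** (`C` finite). -/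
theorem subsingleton_baseChange_iff [Module.Finite R C] :
    Subsingleton (S ⊗[R] C) ↔
      ∀ q : PrimeSpectrum S, PrimeSpectrum.comap (algebraMap R S) q ∉ Module.support R C := by
  constructor
  · intro h q
    exact notMem_support_of_subsingleton_baseChange C S q
  · intro h
    by_contra hne
    rw [not_subsingleton_iff_nontrivial] at hne
    obtain ⟨q, hq⟩ := Module.nonempty_support_of_nontrivial (R := S) (M := S ⊗[R] C)
    exact h q (comap_mem_support_of_mem_support_baseChange C S q hq)

end Support

section Locus

variable {R : Type u} [CommRing R] {M : Type v} {N : Type w} [AddCommGroup M] [Module R M]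
  [AddCommGroup N] [Module R N] (F : M →ₗ[R] N)

/-- the locus of `Spec R` over which `F` is surjective: the complement of `Supp (coker F)` -/
def surjLocus : Set (PrimeSpectrum R) := (Module.support R (N ⧸ LinearMap.range F))ᶜ

theorem mem_surjLocus {p : PrimeSpectrum R} :
    p ∈ surjLocus F ↔ p ∉ Module.support R (N ⧸ LinearMap.range F) := Iff.rfl

theorem isOpen_surjLocus [Module.Finite R N] : IsOpen (surjLocus F) :=
  (Module.isClosed_support (R := R) (M := N ⧸ LinearMap.range F)).isOpen_compl

theorem surjective_iff_surjLocus : Function.Surjective F ↔ surjLocus F = Set.univ := by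
  rw [surjLocus, compl_eq_comm, Set.compl_univ, eq_comm,
    Module.support_eq_empty_iff, Submodule.Quotient.subsingleton_iff,
    LinearMap.range_eq_top]

variable {S : Type*} [CommRing S] [Algebra R S]

theorem surjective_baseChange_iff_subsingleton :
    Function.Surjective (F.baseChange S) ↔ Subsingleton (S ⊗[R] (N ⧸ LinearMap.range F)) := by
  have hex : Function.Exact (F.lTensor S) ((LinearMap.range F).mkQ.lTensor S) :=
    lTensor_exact S (LinearMap.exact_map_mkQ_range F) (Submodule.mkQ_surjective _)
  have hsurj : Function.Surjective ((LinearMap.range F).mkQ.lTensor S) :=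
    LinearMap.lTensor_surjective S (Submodule.mkQ_surjective _)
  have hcoe : (F.baseChange S : S ⊗[R] M → S ⊗[R] N) = F.lTensor S := rfl
  rw [hcoe]
  constructor
  · intro h
    refine ⟨fun a b => ?_⟩
    have key : ∀ y : S ⊗[R] (N ⧸ LinearMap.range F), y = 0 := by
      intro y
      obtain ⟨n, rfl⟩ := hsurj y
      obtain ⟨m, rfl⟩ := h n
      exact (hex _).2 ⟨m, rfl⟩
    rw [key a, key b]
  · intro h n
    exact (hex n).1 (Subsingleton.elim _ _)

/-- **The surjectivity locus is "the" open subfunctor**: `F ⊗ S` is surjective iff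
`Spec S → Spec R` lands in `surjLocus F`. -/
theorem surjective_baseChange_iff [Module.Finite R N] :
    Function.Surjective (F.baseChange S) ↔
      ∀ q : PrimeSpectrum S, PrimeSpectrum.comap (algebraMap R S) q ∈ surjLocus F := by
  rw [surjective_baseChange_iff_subsingleton, subsingleton_baseChange_iff]
  rfl

/-- pointwise description of the surjectivity locus -/
theorem mem_surjLocus_iff_exists_away [Module.Finite R N] (p : PrimeSpectrum R) :
    p ∈ surjLocus F ↔
      ∃ f : R, f ∉ p.asIdeal ∧ Function.Surjective (F.baseChange (Localization.Away f)) := by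
  constructor
  · intro hp
    obtain ⟨_, ⟨f, rfl⟩, hpf, hfU⟩ :=
      PrimeSpectrum.isTopologicalBasis_basic_opens.exists_subset_of_mem_open hp
        (isOpen_surjLocus F)
    refine ⟨f, hpf, ?_⟩
    rw [surjective_baseChange_iff]
    intro q
    apply hfU
    have : PrimeSpectrum.comap (algebraMap R (Localization.Away f)) q ∈
        Set.range (PrimeSpectrum.comap (algebraMap R (Localization.Away f))) := ⟨q, rfl⟩
    rwa [PrimeSpectrum.localization_away_comap_range (Localization.Away f) f] at this
  · rintro ⟨f, hf, hs⟩
    rw [surjective_baseChange_iff] at hs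
    have hp : p ∈ (PrimeSpectrum.basicOpen f : Set (PrimeSpectrum R)) := hf
    rw [← PrimeSpectrum.localization_away_comap_range (Localization.Away f) f] at hp
    obtain ⟨q, rfl⟩ := hp
    exact hs q

omit [Algebra R S] in
/-- fibrewise description of the surjectivity locus -/
theorem mem_surjLocus_iff_residueField [Module.Finite R N] (p : PrimeSpectrum R) :
    p ∈ surjLocus F ↔ Function.Surjective (F.baseChange p.asIdeal.ResidueField) := by
  rw [surjective_baseChange_iff]
  have key : ∀ q : PrimeSpectrum p.asIdeal.ResidueField,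
      PrimeSpectrum.comap (algebraMap R p.asIdeal.ResidueField) q = p := by
    intro q
    ext x
    rw [PrimeSpectrum.comap_asIdeal, Ideal.mem_comap, Ideal.eq_bot_of_prime q.asIdeal,
      Ideal.mem_bot, Ideal.algebraMap_residueField_eq_zero]
  constructor
  · intro hp q
    rwa [key q]
  · intro h
    have := h ⟨⊥, Ideal.isPrime_bot⟩
    rwa [key] at this

section Flat

variable [Module.Finite R M] [Module.Finite R N] [Module.Flat R M] [Module.Flat R N]

/-- for finite flat modules of the same rank, surjective = bijective, after any base change -/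
theorem bijective_baseChange_of_surjective
    (hrank : ∀ p : PrimeSpectrum R, Module.rankAtStalk M p = Module.rankAtStalk N p)
    (h : Function.Surjective (F.baseChange S)) : Function.Bijective (F.baseChange S) :=
  Module.bijective_of_surjective_of_rankAtStalk_eq h (fun m _ => by
    rw [Module.rankAtStalk_baseChange, Module.rankAtStalk_baseChange, hrank])

/-- **`F ⊗ S` is bijective iff `Spec S → Spec R` lands in the open set `surjLocus F`**
(`M`, `N` finite flat of the same rank). -/
theorem bijective_baseChange_iff
    (hrank : ∀ p : PrimeSpectrum R, Module.rankAtStalk M p = Module.rankAtStalk N p) :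
    Function.Bijective (F.baseChange S) ↔
      ∀ q : PrimeSpectrum S, PrimeSpectrum.comap (algebraMap R S) q ∈ surjLocus F :=
  ⟨fun h => (surjective_baseChange_iff F).1 h.2,
    fun h => bijective_baseChange_of_surjective F hrank ((surjective_baseChange_iff F).2 h)⟩

theorem bijective_iff_surjLocus
    (hrank : ∀ p : PrimeSpectrum R, Module.rankAtStalk M p = Module.rankAtStalk N p) :
    Function.Bijective F ↔ surjLocus F = Set.univ :=
  ⟨fun h => (surjective_iff_surjLocus F).1 h.2, fun h =>
    Module.bijective_of_surjective_of_rankAtStalk_eq ((surjective_iff_surjLocus F).2 h)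
      (fun _ _ => hrank _)⟩

theorem mem_surjLocus_iff_exists_away_bijective
    (hrank : ∀ p : PrimeSpectrum R, Module.rankAtStalk M p = Module.rankAtStalk N p)
    (p : PrimeSpectrum R) :
    p ∈ surjLocus F ↔
      ∃ f : R, f ∉ p.asIdeal ∧ Function.Bijective (F.baseChange (Localization.Away f)) := by
  rw [mem_surjLocus_iff_exists_away]
  exact ⟨fun ⟨f, hf, h⟩ => ⟨f, hf, bijective_baseChange_of_surjective F hrank h⟩,
    fun ⟨f, hf, h⟩ => ⟨f, hf, h.2⟩⟩

end Flat

end Locus

end Fermat.Agent.S25lib.Hilb
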