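/-
S25lib / Hilb / Local  (helper5)  --  Project L (S25), block (I3)/(H2), pure algebra.
The `β`-chart is an OPEN subfunctor of the functor of ideals with finite flat quotient of rank `g`,
and the charts cover:
* `isFramed_push_iff_bijective_baseChange` : `IsFramed β (I·A_{R'}) ↔ (frameMap β I) ⊗ R'` bijective;
* `framedLocus β I ⊆ Spec R` (open), `isFramed_push_iff` : for `φ : R →ₐ[k] R'`,
  `IsFramed β (push φ I) ↔ Spec φ` lands in `framedLocus β I`;
* `exists_mem_framedLocus` : every prime lies in `framedLocus β I` for some `β` with values in a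
  given `k`-spanning set of `A`.
-/
import Fermat.Agent.S25lib.Hilb.Framed
import Fermat.Agent.S25lib.Hilb.SurjLocus

set_option autoImplicit false

noncomputable section

namespace Fermat.Agent.S25lib.Hilb

open TensorProduct

universe u v w₁ w₂

variable {k : Type u} [CommRing k] {A : Type v} [CommRing A] [Algebra k A] {g : ℕ} (β : Fin g → A)

section Bridge

variable {R : Type w₁} [CommRing R] [Algebra k R] {R' : Type w₂} [CommRing R'] [Algebra k R']
  [Algebra R R'] [IsScalarTower k R R']

theorem bc_frameLift (c : Fin g → R) :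
    bc k A (IsScalarTower.toAlgHom k R R') (frameLift β c) =
      frameLift β (fun i => algebraMap R R' (c i)) := by
  rw [frameLift_apply', frameLift_apply', map_sum]
  refine Finset.sum_congr rfl fun i _ => ?_
  rw [bc_tmul]
  rfl

theorem pushEquiv_baseChange_frameMap (I : Ideal (R ⊗[k] A)) (x : R' ⊗[R] (Fin g → R)) :
    pushEquiv k A I ((frameMap β I).baseChange R' x) =
      frameMap β (push k A (IsScalarTower.toAlgHom k R R') I)
        (TensorProduct.piScalarRight R R' R' (Fin g) x) := by
  induction x using TensorProduct.induction_on with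
  | zero => simp
  | add x y hx hy => simp only [map_add, hx, hy]
  | tmul r c =>
    rw [LinearMap.baseChange_tmul, frameMap_apply, pushEquiv_tmul, bc_frameLift, frameMap_apply,
      TensorProduct.piScalarRight_apply, TensorProduct.piScalarRightHom_tmul]
    have h1 : (fun j => c j • r) = r • (fun i => algebraMap R R' (c i)) := by
      ext j
      simp [Algebra.smul_def, mul_comm]
    rw [h1, map_smul]
    rfl

/-- **`β` frames `I·A_{R'}` iff the base change of the framing map of `I` is bijective.** -/
theorem isFramed_push_iff_bijective_baseChange (I : Ideal (R ⊗[k] A)) :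
    IsFramed β (push k A (IsScalarTower.toAlgHom k R R') I) ↔
      Function.Bijective ((frameMap β I).baseChange R') := by
  have h : (frameMap β (push k A (IsScalarTower.toAlgHom k R R') I)) ∘
      (TensorProduct.piScalarRight R R' R' (Fin g)) =
      (pushEquiv k A I) ∘ ((frameMap β I).baseChange R') := by
    funext x
    exact (pushEquiv_baseChange_frameMap β I x).symm
  unfold IsFramed
  rw [← Function.Bijective.of_comp_iff _ (TensorProduct.piScalarRight R R' R' (Fin g)).bijective, h,
    Function.Bijective.of_comp_iff' (pushEquiv k A I).bijective]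

end Bridge

section Pt

variable {R : Type w₁} [CommRing R] [Algebra k R] {R' : Type w₂} [CommRing R'] [Algebra k R']

/-- `I` is a point of the functor of ideals of colength `g`:
`A_R ⧸ I` is a finite flat `R`-module of constant rank `g`. -/
structure IsPt (g : ℕ) (I : Ideal (R ⊗[k] A)) : Prop where
  finite : Module.Finite R ((R ⊗[k] A) ⧸ I)
  flat : Module.Flat R ((R ⊗[k] A) ⧸ I)
  rank : ∀ p : PrimeSpectrum R, Module.rankAtStalk ((R ⊗[k] A) ⧸ I) p = g

theorem IsPt.of_projective {I : Ideal (R ⊗[k] A)} [Module.Finite R ((R ⊗[k] A) ⧸ I)]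
    [Module.Projective R ((R ⊗[k] A) ⧸ I)]
    (hr : ∀ p : PrimeSpectrum R, Module.rankAtStalk ((R ⊗[k] A) ⧸ I) p = g) : IsPt g I :=
  ⟨inferInstance, inferInstance, hr⟩

theorem rankAtStalk_fin_fun (p : PrimeSpectrum R) : Module.rankAtStalk (Fin g → R) p = g := by
  have : Nontrivial R := p.nontrivial
  rw [Module.rankAtStalk_eq_finrank_of_free]
  simp

variable {β} in
theorem IsFramed.isPt {I : Ideal (R ⊗[k] A)} (h : IsFramed β I) : IsPt g I where
  finite := Module.Finite.equiv h.equiv
  flat := Module.Flat.of_linearEquiv h.equiv.symm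
  rank p := by
    rw [← Module.rankAtStalk_eq_of_equiv h.equiv, rankAtStalk_fin_fun]

/-- points are stable under base change -/
theorem IsPt.push {I : Ideal (R ⊗[k] A)} (h : IsPt g I) (φ : R →ₐ[k] R') :
    IsPt g (Hilb.push k A φ I) := by
  let : Algebra R R' := φ.toRingHom.toAlgebra
  have : IsScalarTower k R R' := IsScalarTower.of_algebraMap_eq' φ.comp_algebraMap.symm
  have hφ : IsScalarTower.toAlgHom k R R' = φ := AlgHom.ext fun _ => rfl
  have := h.finite
  have := h.flat
  have e := (pushEquiv k A (R' := R') I).toLinearEquiv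
  rw [hφ] at e
  refine ⟨Module.Finite.equiv e, Module.Flat.of_linearEquiv e.symm, fun p => ?_⟩
  rw [← Module.rankAtStalk_eq_of_equiv e, Module.rankAtStalk_baseChange, h.rank]

end Pt

section Locus

variable {R : Type w₁} [CommRing R] [Algebra k R] {R' : Type w₂} [CommRing R'] [Algebra k R']

/-- the locus of `Spec R` over which `β` frames `I` -/
def framedLocus (I : Ideal (R ⊗[k] A)) : Set (PrimeSpectrum R) := surjLocus (frameMap β I)

variable {β} {I : Ideal (R ⊗[k] A)}

theorem isOpen_framedLocus (h : IsPt g I) : IsOpen (framedLocus β I) :=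
  have := h.finite
  isOpen_surjLocus _

/-- **The `β`-chart is an open subfunctor**: for `φ : R →ₐ[k] R'`, `β` frames `I·A_{R'}` iff
`Spec φ` lands in the open set `framedLocus β I`. -/
theorem isFramed_push_iff (h : IsPt g I) (φ : R →ₐ[k] R') :
    IsFramed β (push k A φ I) ↔
      ∀ q : PrimeSpectrum R', PrimeSpectrum.comap φ.toRingHom q ∈ framedLocus β I := by
  let : Algebra R R' := φ.toRingHom.toAlgebra
  have : IsScalarTower k R R' := IsScalarTower.of_algebraMap_eq' φ.comp_algebraMap.symm
  have hφ : IsScalarTower.toAlgHom k R R' = φ := AlgHom.ext fun _ => rfl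
  have := h.finite
  have := h.flat
  rw [← hφ, isFramed_push_iff_bijective_baseChange,
    bijective_baseChange_iff (frameMap β I) (fun p => by rw [rankAtStalk_fin_fun, h.rank])]
  rfl

theorem isFramed_iff_framedLocus (h : IsPt g I) : IsFramed β I ↔ framedLocus β I = Set.univ :=
  have := h.finite
  have := h.flat
  bijective_iff_surjLocus (frameMap β I) (fun p => by rw [rankAtStalk_fin_fun, h.rank])

/-- pointwise: `p` is in the framed locus iff `β` frames `I` over some basic open `D(f) ∋ p` -/
theorem mem_framedLocus_iff (h : IsPt g I) (p : PrimeSpectrum R) :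
    p ∈ framedLocus β I ↔ ∃ f : R, f ∉ p.asIdeal ∧
      IsFramed β (push k A (IsScalarTower.toAlgHom k R (Localization.Away f)) I) := by
  have := h.finite
  have := h.flat
  unfold framedLocus
  rw [mem_surjLocus_iff_exists_away_bijective (frameMap β I)
    (fun p => by rw [rankAtStalk_fin_fun, h.rank])]
  simp only [isFramed_push_iff_bijective_baseChange]

/-- the classes of `1 ⊗ b`, `b ∈ B`, span `A_R ⧸ I` over `R` when `B` spans `A` over `k` -/
theorem span_mk_one_tmul {B : Set A} (hB : Submodule.span k B = ⊤) (I : Ideal (R ⊗[k] A)) :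
    Submodule.span R ((fun b : A => Ideal.Quotient.mk I ((1 : R) ⊗ₜ[k] b)) '' B) = ⊤ := by
  rw [eq_top_iff]
  rintro y -
  obtain ⟨x, rfl⟩ := Ideal.Quotient.mk_surjective y
  induction x using TensorProduct.induction_on with
  | zero => simp
  | add x y hx hy =>
    rw [map_add]
    exact Submodule.add_mem _ hx hy
  | tmul r a =>
    have ha : a ∈ Submodule.span k B := hB ▸ Submodule.mem_top
    have h1 : r ⊗ₜ[k] a = r • ((1 : R) ⊗ₜ[k] a) := by
      rw [TensorProduct.smul_tmul', smul_eq_mul, mul_one]
    rw [h1]
    have h2 : Ideal.Quotient.mk I (r • ((1 : R) ⊗ₜ[k] a)) =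
        r • Ideal.Quotient.mk I ((1 : R) ⊗ₜ[k] a) := rfl
    rw [h2]
    apply Submodule.smul_mem
    clear h1 h2
    induction ha using Submodule.span_induction with
    | mem b hb => exact Submodule.subset_span ⟨b, hb, rfl⟩
    | zero => simp
    | add a b _ _ ha hb =>
      rw [TensorProduct.tmul_add, map_add]
      exact Submodule.add_mem _ ha hb
    | smul c a _ ha =>
      have h3 : (1 : R) ⊗ₜ[k] (c • a) = (algebraMap k R c) • ((1 : R) ⊗ₜ[k] a) := by
        rw [TensorProduct.tmul_smul, algebraMap_smul]
      rw [h3]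
      have h4 : Ideal.Quotient.mk I ((algebraMap k R c) • ((1 : R) ⊗ₜ[k] a)) =
        (algebraMap k R c) • Ideal.Quotient.mk I ((1 : R) ⊗ₜ[k] a) := rfl
      rw [h4]
      exact Submodule.smul_mem _ _ ha

/-- **The charts cover**: every prime of `R` lies in the framed locus of some `β` with values in a
given `k`-spanning set `B` of `A`. -/
theorem exists_mem_framedLocus (h : IsPt g I) {B : Set A} (hB : Submodule.span k B = ⊤)
    (p : PrimeSpectrum R) :
    ∃ β : Fin g → A, (∀ i, β i ∈ B) ∧ p ∈ framedLocus β I := by
  have := h.finite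
  have := h.flat
  -- the fibre `V = κ(p) ⊗ Q` and the vectors `v b = 1 ⊗ [1 ⊗ b]`
  let v : B → p.asIdeal.ResidueField ⊗[R] ((R ⊗[k] A) ⧸ I) := fun b =>
    (1 : p.asIdeal.ResidueField) ⊗ₜ[R] (Ideal.Quotient.mk I ((1 : R) ⊗ₜ[k] (b : A)))
  have hspanV : Submodule.span p.asIdeal.ResidueField (Set.range v) = ⊤ := by
    rw [eq_top_iff]
    rintro y -
    induction y using TensorProduct.induction_on with
    | zero => simp
    | add x y hx hy => exact Submodule.add_mem _ hx hy
    | tmul c z =>
      have hz : z ∈ Submodule.span R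
          ((fun b : A => Ideal.Quotient.mk I ((1 : R) ⊗ₜ[k] b)) '' B) :=
        span_mk_one_tmul hB I ▸ Submodule.mem_top
      have h1 : c ⊗ₜ[R] z = c • ((1 : p.asIdeal.ResidueField) ⊗ₜ[R] z) := by
        rw [TensorProduct.smul_tmul', smul_eq_mul, mul_one]
      rw [h1]
      apply Submodule.smul_mem
      clear h1
      induction hz using Submodule.span_induction with
      | mem z hz =>
        obtain ⟨b, hb, rfl⟩ := hz
        exact Submodule.subset_span ⟨⟨b, hb⟩, rfl⟩
      | zero => simp
      | add a b _ _ ha hb =>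
        rw [TensorProduct.tmul_add]
        exact Submodule.add_mem _ ha hb
      | smul r a _ ha =>
        have h3 : (1 : p.asIdeal.ResidueField) ⊗ₜ[R] (r • a) =
            (algebraMap R p.asIdeal.ResidueField r) • ((1 : p.asIdeal.ResidueField) ⊗ₜ[R] a) := by
          rw [TensorProduct.tmul_smul, algebraMap_smul]
        rw [h3]
        exact Submodule.smul_mem _ _ ha
  obtain ⟨κ', a, -, hsp, hli⟩ := exists_linearIndependent' p.asIdeal.ResidueField v
  rw [hspanV] at hsp
  let bas : Module.Basis κ' p.asIdeal.ResidueField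
      (p.asIdeal.ResidueField ⊗[R] ((R ⊗[k] A) ⧸ I)) := Module.Basis.mk hli hsp.ge
  have hfin : Finite κ' := Module.Finite.finite_basis bas
  have : Fintype κ' := Fintype.ofFinite κ'
  have hcard : Fintype.card κ' = g := by
    rw [← Module.finrank_eq_card_basis bas, ← h.rank p, Module.rankAtStalk_eq]
  let e : Fin g ≃ κ' := (Fintype.equivFinOfCardEq hcard).symm
  refine ⟨fun i => ((a (e i) : B) : A), fun i => (a (e i)).2, ?_⟩
  unfold framedLocus
  rw [mem_surjLocus_iff_residueField]
  -- the range contains the basis vectors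
  rw [← LinearMap.range_eq_top, eq_top_iff, ← hsp, Submodule.span_le]
  rintro _ ⟨j, rfl⟩
  refine ⟨(1 : p.asIdeal.ResidueField) ⊗ₜ[R] (Pi.single (e.symm j) 1), ?_⟩
  rw [LinearMap.baseChange_tmul, frameMap_apply, frameLift_single]
  simp only [Function.comp_apply, Equiv.apply_symm_apply, v]

end Locus

end Fermat.Agent.S25lib.Hilb
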