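/-
S25lib / Hilb / Rep  (helper5)  --  Project L (S25), block (I3), pure algebra.
**Representability of the functor of `β`-framed ideals.**  `H k β` is the `k`-algebra on generators
`x i a` (`i : Fin g`, `a : A`; "the `i`-th coordinate of the class of `a`") with the relations
`k`-linearity in `a`, `x i (β j) = δ_ij`, `x l (a b) = ∑ i, x i b * x l (a β_i)`.
`(H k β →ₐ[k] R) ≃ {I : Ideal (R ⊗[k] A) // IsFramed β I}`, naturally in `R`, with universal ideal
`univIdeal`; `H k β` is a finitely generated `k`-algebra when `A` is.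
-/
import Fermat.Agent.S25lib.Hilb.Framed

set_option autoImplicit false

noncomputable section

namespace Fermat.Agent.S25lib.Hilb

open TensorProduct MvPolynomial

universe u v w₁ w₂

variable (k : Type u) [CommRing k] {A : Type v} [CommRing A] [Algebra k A] {g : ℕ} (β : Fin g → A)

/-- the defining relations of `H k β` -/
def relSet : Set (MvPolynomial (Fin g × A) k) :=
  {f | (∃ i x y, f = X (i, x + y) - X (i, x) - X (i, y)) ∨
       (∃ i, ∃ c : k, ∃ x, f = X (i, c • x) - C c * X (i, x)) ∨
       (∃ i j, f = X (i, β j) - (if j = i then 1 else 0)) ∨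
       (∃ l x y, f = X (l, x * y) - ∑ i, X (i, y) * X (l, x * β i))}

/-- the ideal of relations -/
def relIdeal : Ideal (MvPolynomial (Fin g × A) k) := Ideal.span (relSet k β)

/-- the coordinate ring of the `β`-chart of the functor of ideals of colength `g` -/
def H : Type (max u v) := MvPolynomial (Fin g × A) k ⧸ relIdeal k β

instance : CommRing (H k β) :=
  inferInstanceAs (CommRing (MvPolynomial (Fin g × A) k ⧸ relIdeal k β))

instance : Algebra k (H k β) :=
  inferInstanceAs (Algebra k (MvPolynomial (Fin g × A) k ⧸ relIdeal k β))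

namespace H

/-- the quotient map -/
def mk : MvPolynomial (Fin g × A) k →ₐ[k] H k β := Ideal.Quotient.mkₐ k (relIdeal k β)

theorem mk_surjective : Function.Surjective (mk k β) := Ideal.Quotient.mkₐ_surjective k _

theorem mk_eq_zero {f : MvPolynomial (Fin g × A) k} (hf : f ∈ relSet k β) : mk k β f = 0 :=
  Ideal.Quotient.eq_zero_iff_mem.2 (Ideal.subset_span hf)

/-- the generator `x i a` -/
def x (i : Fin g) (a : A) : H k β := mk k β (X (i, a))

theorem x_add (i : Fin g) (a b : A) : x k β i (a + b) = x k β i a + x k β i b := by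
  have h := mk_eq_zero k β (f := X (i, a + b) - X (i, a) - X (i, b)) (Or.inl ⟨i, a, b, rfl⟩)
  rw [map_sub, map_sub, sub_sub, sub_eq_zero] at h
  exact h

theorem x_smul (i : Fin g) (c : k) (a : A) : x k β i (c • a) = c • x k β i a := by
  have h := mk_eq_zero k β (f := X (i, c • a) - C c * X (i, a)) (Or.inr (Or.inl ⟨i, c, a, rfl⟩))
  rw [map_sub, sub_eq_zero, map_mul] at h
  rw [x, h, Algebra.smul_def]
  congr 1

theorem x_frame (i j : Fin g) : x k β i (β j) = if j = i then 1 else 0 := by
  have h := mk_eq_zero k β (f := X (i, β j) - (if j = i then 1 else 0))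
    (Or.inr (Or.inr (Or.inl ⟨i, j, rfl⟩)))
  rw [map_sub, sub_eq_zero] at h
  rw [x, h]
  split_ifs <;> simp

theorem x_mul (l : Fin g) (a b : A) :
    x k β l (a * b) = ∑ i, x k β i b * x k β l (a * β i) := by
  have h := mk_eq_zero k β (f := X (l, a * b) - ∑ i, X (i, b) * X (l, a * β i))
    (Or.inr (Or.inr (Or.inr ⟨l, a, b, rfl⟩)))
  rw [map_sub, sub_eq_zero, map_sum] at h
  rw [x, h]
  refine Finset.sum_congr rfl fun i _ => ?_
  rw [map_mul]
  rfl

end H

/-- the universal retraction datum over `H k β` -/
def univRetr : Retr k β (H k β) where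
  p :=
    { toFun := fun a i => H.x k β i a
      map_add' := fun a b => funext fun i => H.x_add k β i a b
      map_smul' := fun c a => funext fun i => H.x_smul k β i c a }
  frame i := by
    ext j
    simp only [LinearMap.coe_mk, AddHom.coe_mk, H.x_frame, Pi.single_apply]
    by_cases h : i = j
    · subst h; simp
    · rw [if_neg h, if_neg (Ne.symm h)]
  mul a b := by
    ext l
    simp only [LinearMap.coe_mk, AddHom.coe_mk, Finset.sum_apply, Pi.smul_apply, smul_eq_mul]
    exact H.x_mul k β l a b

theorem univRetr_p_apply (a : A) (i : Fin g) : (univRetr k β).p a i = H.x k β i a := rfl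

section Lift

variable {k β}
variable {R : Type w₁} [CommRing R] [Algebra k R]

/-- evaluation of the generators at a retraction datum -/
def Retr.evalPoly (ρ : Retr k β R) : MvPolynomial (Fin g × A) k →ₐ[k] R :=
  aeval (fun ia : Fin g × A => ρ.p ia.2 ia.1)

theorem Retr.evalPoly_rel (ρ : Retr k β R) : ∀ f ∈ relIdeal k β, ρ.evalPoly f = 0 := by
  intro f hf
  have h : relIdeal k β ≤ RingHom.ker ρ.evalPoly.toRingHom := by
    unfold relIdeal
    rw [Ideal.span_le]
    rintro f (⟨i, x, y, rfl⟩ | ⟨i, c, x, rfl⟩ | ⟨i, j, rfl⟩ | ⟨l, x, y, rfl⟩)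
    · simp [Retr.evalPoly, RingHom.mem_ker]
    · simp only [SetLike.mem_coe, RingHom.mem_ker, AlgHom.toRingHom_eq_coe, RingHom.coe_coe,
        Retr.evalPoly, map_sub, aeval_X, map_mul, aeval_C]
      rw [map_smul, Pi.smul_apply, Algebra.smul_def, sub_self]
    · simp only [SetLike.mem_coe, RingHom.mem_ker, AlgHom.toRingHom_eq_coe, RingHom.coe_coe,
        Retr.evalPoly, map_sub, aeval_X, ρ.frame, Pi.single_apply]
      by_cases hij : j = i
      · subst hij; simp
      · rw [if_neg (Ne.symm hij), if_neg hij]; simp
    · simp only [SetLike.mem_coe, RingHom.mem_ker, AlgHom.toRingHom_eq_coe, RingHom.coe_coe,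
        Retr.evalPoly, map_sub, aeval_X, map_sum, map_mul, ρ.mul x y, Finset.sum_apply,
        Pi.smul_apply, smul_eq_mul, sub_self]
  exact h hf

/-- the classifying homomorphism of a retraction datum -/
def Retr.classify (ρ : Retr k β R) : H k β →ₐ[k] R :=
  Ideal.Quotient.liftₐ (relIdeal k β) ρ.evalPoly ρ.evalPoly_rel

@[simp]
theorem Retr.classify_x (ρ : Retr k β R) (i : Fin g) (a : A) :
    ρ.classify (H.x k β i a) = ρ.p a i := by
  show Ideal.Quotient.liftₐ (relIdeal k β) ρ.evalPoly ρ.evalPoly_rel
    (Ideal.Quotient.mk _ (X (i, a))) = _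
  rw [Ideal.Quotient.liftₐ_apply, Ideal.Quotient.lift_mk]
  simp [Retr.evalPoly]

theorem H.algHom_ext {f f' : H k β →ₐ[k] R} (h : ∀ i a, f (H.x k β i a) = f' (H.x k β i a)) :
    f = f' := by
  apply Ideal.Quotient.algHom_ext
  apply MvPolynomial.algHom_ext
  rintro ⟨i, a⟩
  exact h i a

variable (k β) in
/-- **Representability, retraction form**: `(H k β →ₐ[k] R) ≃ Retr k β R`. -/
def homEquivRetr : (H k β →ₐ[k] R) ≃ Retr k β R where
  toFun f := (univRetr k β).map f
  invFun ρ := ρ.classify
  left_inv f := H.algHom_ext fun i a => by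
    rw [Retr.classify_x, Retr.map_p_apply, univRetr_p_apply]
  right_inv ρ := by
    ext a i
    rw [Retr.map_p_apply, univRetr_p_apply, Retr.classify_x]

theorem homEquivRetr_comp {R' : Type w₂} [CommRing R'] [Algebra k R'] (φ : R →ₐ[k] R')
    (f : H k β →ₐ[k] R) : homEquivRetr k β (φ.comp f) = (homEquivRetr k β f).map φ := by
  ext a i
  rfl

end Lift

section Classify

variable {R : Type w₁} [CommRing R] [Algebra k R] {R' : Type w₂} [CommRing R'] [Algebra k R']

/-- the universal `β`-framed ideal, over `H k β` -/
def univIdeal : Ideal (H k β ⊗[k] A) := (univRetr k β).ideal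

theorem univIdeal_isFramed : IsFramed β (univIdeal k β) := (univRetr k β).isFramed

/-- **Representability of the `β`-chart of the functor of ideals**:
`β`-framed ideals of `A_R` are the `k`-algebra homomorphisms `H k β → R`. -/
def framedEquivHom : {I : Ideal (R ⊗[k] A) // IsFramed β I} ≃ (H k β →ₐ[k] R) :=
  (framedEquivRetr β).trans (homEquivRetr k β).symm

theorem framedEquivHom_x (I : {I : Ideal (R ⊗[k] A) // IsFramed β I}) (i : Fin g) (a : A) :
    framedEquivHom k β I (H.x k β i a) = I.2.coord ((1 : R) ⊗ₜ[k] a) i := by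
  show (I.2.retr).classify (H.x k β i a) = _
  rw [Retr.classify_x, IsFramed.retr_p_apply]

/-- the ideal classified by `f : H k β →ₐ[k] R` is the pull-back of the universal ideal -/
theorem framedEquivHom_symm_val (f : H k β →ₐ[k] R) :
    ((framedEquivHom k β).symm f).1 = push k A f (univIdeal k β) := by
  show ((univRetr k β).map f).ideal = _
  rw [Retr.map_ideal]
  rfl

/-- naturality in `R` -/
theorem framedEquivHom_push (φ : R →ₐ[k] R') (I : {I : Ideal (R ⊗[k] A) // IsFramed β I}) :
    framedEquivHom k β ⟨push k A φ I.1, I.2.push φ⟩ = φ.comp (framedEquivHom k β I) := by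
  apply (homEquivRetr k β).injective
  rw [homEquivRetr_comp]
  show homEquivRetr k β ((homEquivRetr k β).symm (I.2.push φ).retr) =
    (homEquivRetr k β ((homEquivRetr k β).symm I.2.retr)).map φ
  rw [Equiv.apply_symm_apply, Equiv.apply_symm_apply, IsFramed.push_retr]

theorem framedEquivHom_id :
    framedEquivHom k β ⟨univIdeal k β, univIdeal_isFramed k β⟩ = AlgHom.id k (H k β) := by
  apply (framedEquivHom k β).symm.injective
  rw [Equiv.symm_apply_apply]
  apply Subtype.ext
  rw [framedEquivHom_symm_val, push_id]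

end Classify

section FiniteType

theorem H.adjoin_x : Algebra.adjoin k (Set.range fun ia : Fin g × A => H.x k β ia.1 ia.2) = ⊤ := by
  have h1 := MvPolynomial.adjoin_range_X (R := k) (σ := Fin g × A)
  have h2 := congrArg (Subalgebra.map (H.mk k β)) h1
  rw [AlgHom.map_adjoin, ← Set.range_comp, Algebra.map_top,
    (AlgHom.range_eq_top _).2 (H.mk_surjective k β)] at h2
  exact h2

/-- `H k β` is a finitely generated `k`-algebra when `A` is -/
theorem H.finiteType [Algebra.FiniteType k A] : Algebra.FiniteType k (H k β) := by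
  obtain ⟨S, hS⟩ := (Algebra.FiniteType.out : (⊤ : Subalgebra k A).FG)
  classical
  let gens : Finset (H k β) :=
    (Finset.univ ×ˢ (Finset.univ ×ˢ S)).image
        (fun t : Fin g × (Fin g × A) => H.x k β t.1 (t.2.2 * β t.2.1)) ∪
      Finset.univ.image (fun i : Fin g => H.x k β i 1)
  let G : Subalgebra k (H k β) := Algebra.adjoin k (gens : Set (H k β))
  have hgen1 : ∀ i l, ∀ s ∈ S, H.x k β i (s * β l) ∈ G := by
    intro i l s hs
    apply Algebra.subset_adjoin
    rw [Finset.mem_coe, Finset.mem_union]
    left
    rw [Finset.mem_image]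
    exact ⟨(i, (l, s)), by simp [hs], rfl⟩
  have hgen2 : ∀ i, H.x k β i 1 ∈ G := by
    intro i
    apply Algebra.subset_adjoin
    rw [Finset.mem_coe, Finset.mem_union]
    right
    rw [Finset.mem_image]
    exact ⟨i, Finset.mem_univ _, rfl⟩
  -- the subalgebra of `a` all of whose `x i (a β_l)` lie in `G`
  let T : Subalgebra k A :=
    { carrier := {a | ∀ i l, H.x k β i (a * β l) ∈ G}
      mul_mem' := by
        intro a b ha hb i l
        rw [mul_assoc, H.x_mul]
        exact Subalgebra.sum_mem _ fun j _ => Subalgebra.mul_mem _ (hb j l) (ha i j)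
      one_mem' := by
        intro i l
        rw [one_mul, H.x_frame]
        split_ifs
        · exact Subalgebra.one_mem _
        · exact Subalgebra.zero_mem _
      add_mem' := by
        intro a b ha hb i l
        rw [add_mul, H.x_add]
        exact Subalgebra.add_mem _ (ha i l) (hb i l)
      zero_mem' := by
        intro i l
        have : H.x k β i (0 * β l) = 0 := by
          have := H.x_smul k β i (0 : k) (β l)
          rwa [zero_smul, zero_smul, ← zero_mul (β l)] at this
        rw [this]
        exact Subalgebra.zero_mem _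
      algebraMap_mem' := by
        intro c i l
        rw [← Algebra.smul_def, H.x_smul, H.x_frame]
        apply Subalgebra.smul_mem
        split_ifs
        · exact Subalgebra.one_mem _
        · exact Subalgebra.zero_mem _ }
  have hT : T = ⊤ := by
    rw [eq_top_iff, ← hS]
    apply Algebra.adjoin_le
    intro s hs i l
    exact hgen1 i l s hs
  have hall : ∀ i a, H.x k β i a ∈ G := by
    intro i a
    have ha : a ∈ T := hT ▸ Algebra.mem_top
    have h1 : H.x k β i a = ∑ j, H.x k β j 1 * H.x k β i (a * β j) := by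
      rw [← H.x_mul, mul_one]
    rw [h1]
    exact Subalgebra.sum_mem _ fun j _ => Subalgebra.mul_mem _ (hgen2 j) (ha i j)
  refine ⟨⟨gens, ?_⟩⟩
  rw [eq_top_iff, ← H.adjoin_x]
  apply Algebra.adjoin_le
  rintro _ ⟨⟨i, a⟩, rfl⟩
  exact hall i a

/-- over a Noetherian base (a field), `H k β` is finitely presented when `A` is of finite type -/
theorem H.finitePresentation [IsNoetherianRing k] [Algebra.FiniteType k A] :
    Algebra.FinitePresentation k (H k β) :=
  haveI := H.finiteType k β
  Algebra.FinitePresentation.of_finiteType.1 inferInstance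

end FiniteType

end Fermat.Agent.S25lib.Hilb
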