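/-
S25lib / Hilb / Smooth  (helper5)  --  Project L (S25), block (I3)/(I4), pure algebra.
Formal smoothness of the chart rings from square-zero lifting of framed ideals:
* `H.formallySmooth_of_lift` : if every `β`-framed ideal over `B ⧸ N` (`N² = 0`) lifts to a `β`-framed ideal
  over `B`, then `H k β` is formally smooth over `k` (hence smooth when `A` is of finite type, `k` noetherian);
* `H.formallySmooth_away_of_lift` : the same for a basic open `D(h)` of `Spec (H k β)`, where only the
  ideals classified by maps inverting `h` have to lift.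
-/
import Fermat.Agent.S25lib.Hilb.Rep

set_option autoImplicit false

noncomputable section

namespace Fermat.Agent.S25lib.Hilb

open TensorProduct

universe u v

variable (k : Type u) [CommRing k] {A : Type v} [CommRing A] [Algebra k A] {g : ℕ} (β : Fin g → A)

/-- **Formal smoothness of a basic open of the chart from lifting of classifying maps.** -/
theorem H.formallySmooth_away_of_lift_hom (h : H k β)
    (hlift : ∀ (B : Type (max u v)) [CommRing B] [Algebra k B] (N : Ideal B), N ^ 2 = ⊥ →
      ∀ f₀ : H k β →ₐ[k] B ⧸ N, IsUnit (f₀ h) →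
        ∃ f : H k β →ₐ[k] B, (Ideal.Quotient.mkₐ k N).comp f = f₀) :
    Algebra.FormallySmooth k (Localization.Away h) := by
  apply Algebra.FormallySmooth.of_comp_surjective
  intro B _ _ N hN g₀
  let f₀ : H k β →ₐ[k] B ⧸ N := g₀.comp (IsScalarTower.toAlgHom k (H k β) (Localization.Away h))
  have hu₀ : IsUnit (f₀ h) := by
    have : IsUnit (algebraMap (H k β) (Localization.Away h) h) :=
      IsLocalization.Away.algebraMap_isUnit h
    exact this.map g₀
  obtain ⟨f, hf⟩ := hlift B N hN f₀ hu₀
  -- `f h` is a unit of `B` because it is one modulo the nilpotent ideal `N`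
  have hu : IsUnit (f h) := by
    apply (IsNilpotent.isUnit_quotient_mk_iff (I := N) ⟨2, hN⟩).mp
    have : Ideal.Quotient.mk N (f h) = f₀ h := congrArg (fun φ : H k β →ₐ[k] B ⧸ N => φ h) hf
    rw [this]
    exact hu₀
  refine ⟨IsLocalization.Away.liftAlgHom (S := Localization.Away h) h (f := f) hu, ?_⟩
  apply AlgHom.coe_ringHom_injective
  refine IsLocalization.ringHom_ext (Submonoid.powers h) ?_
  ext x
  have h1 : (Ideal.Quotient.mk N) (f x) = f₀ x :=
    congrArg (fun φ : H k β →ₐ[k] B ⧸ N => φ x) hf
  simpa [f₀] using h1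

/-- **Formal smoothness of a basic open `D(h)` of the chart from square-zero lifting of those framed ideals
whose classifying map inverts `h`.** -/
theorem H.formallySmooth_away_of_lift (h : H k β)
    (hlift : ∀ (B : Type (max u v)) [CommRing B] [Algebra k B] (N : Ideal B), N ^ 2 = ⊥ →
      ∀ (I₀ : Ideal ((B ⧸ N) ⊗[k] A)) (h₀ : IsFramed β I₀),
        IsUnit (framedEquivHom k β ⟨I₀, h₀⟩ h) →
        ∃ I : Ideal (B ⊗[k] A), IsFramed β I ∧ push k A (Ideal.Quotient.mkₐ k N) I = I₀) :
    Algebra.FormallySmooth k (Localization.Away h) := by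
  apply H.formallySmooth_away_of_lift_hom
  intro B _ _ N hN f₀ hu
  have h1 : framedEquivHom k β ((framedEquivHom k β).symm f₀) = f₀ := Equiv.apply_symm_apply _ _
  obtain ⟨I, hI, hpush⟩ := hlift B N hN ((framedEquivHom k β).symm f₀).1
    ((framedEquivHom k β).symm f₀).2 (by rw [Subtype.coe_eta, h1]; exact hu)
  refine ⟨framedEquivHom k β ⟨I, hI⟩, ?_⟩
  rw [← framedEquivHom_push, ← h1]
  congr 1
  exact Subtype.ext hpush

/-- **Formal smoothness of the chart ring from square-zero lifting of framed ideals.** -/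
theorem H.formallySmooth_of_lift
    (hlift : ∀ (B : Type (max u v)) [CommRing B] [Algebra k B] (N : Ideal B), N ^ 2 = ⊥ →
      ∀ I₀ : Ideal ((B ⧸ N) ⊗[k] A), IsFramed β I₀ →
        ∃ I : Ideal (B ⊗[k] A), IsFramed β I ∧ push k A (Ideal.Quotient.mkₐ k N) I = I₀) :
    Algebra.FormallySmooth k (H k β) := by
  apply Algebra.FormallySmooth.of_comp_surjective
  intro B _ _ N hN f₀
  have h1 : framedEquivHom k β ((framedEquivHom k β).symm f₀) = f₀ := Equiv.apply_symm_apply _ _
  obtain ⟨I, hI, hpush⟩ := hlift B N hN ((framedEquivHom k β).symm f₀).1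
    ((framedEquivHom k β).symm f₀).2
  refine ⟨framedEquivHom k β ⟨I, hI⟩, ?_⟩
  rw [← framedEquivHom_push, ← h1]
  congr 1
  exact Subtype.ext hpush

/-- smoothness of the chart ring (`k` noetherian, `A` of finite type) from square-zero lifting -/
theorem H.smooth_of_lift [IsNoetherianRing k] [Algebra.FiniteType k A]
    (hlift : ∀ (B : Type (max u v)) [CommRing B] [Algebra k B] (N : Ideal B), N ^ 2 = ⊥ →
      ∀ I₀ : Ideal ((B ⧸ N) ⊗[k] A), IsFramed β I₀ →
        ∃ I : Ideal (B ⊗[k] A), IsFramed β I ∧ push k A (Ideal.Quotient.mkₐ k N) I = I₀) :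
    Algebra.Smooth k (H k β) :=
  ⟨H.formallySmooth_of_lift k β hlift, H.finitePresentation k β⟩

/-- smoothness of a basic open of the chart (`k` noetherian, `A` of finite type) -/
theorem H.smooth_away_of_lift [IsNoetherianRing k] [Algebra.FiniteType k A] (h : H k β)
    (hlift : ∀ (B : Type (max u v)) [CommRing B] [Algebra k B] (N : Ideal B), N ^ 2 = ⊥ →
      ∀ (I₀ : Ideal ((B ⧸ N) ⊗[k] A)) (h₀ : IsFramed β I₀),
        IsUnit (framedEquivHom k β ⟨I₀, h₀⟩ h) →
        ∃ I : Ideal (B ⊗[k] A), IsFramed β I ∧ push k A (Ideal.Quotient.mkₐ k N) I = I₀) :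
    Algebra.Smooth k (Localization.Away h) := by
  have := H.finitePresentation k β
  have : Algebra.FinitePresentation (H k β) (Localization.Away h) :=
    IsLocalization.Away.finitePresentation h
  exact ⟨H.formallySmooth_away_of_lift k β h hlift,
    Algebra.FinitePresentation.trans k (H k β) (Localization.Away h)⟩

end Fermat.Agent.S25lib.Hilb
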