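/-
S25lib / Hilb / SchemeSmooth  (helper5)  --  Project L (S25), (P-Smooth) packaging.
* `smooth_of_openImmersion_cover` : `Smooth` is local on the source for a jointly surjective family of open
  immersions (the shape of `RepStatement`'s conclusion: `j i : V i → D.P`).
* `smooth_Spec_of_algebraSmooth` : `Algebra.Smooth k H → Smooth (Spec H → Spec k)`.
* `smooth_opens_of_algebraSmooth` : every open subscheme of `Spec H` is then smooth over `Spec k`.
* `smooth_chartRing_of_lift` : the chart ring `H k β` under the square-zero lifting hypothesis.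
-/
import Fermat.Agent.S25lib.Hilb.Smooth

set_option autoImplicit false

noncomputable section

namespace Fermat.Agent.S25lib.Hilb

open AlgebraicGeometry CategoryTheory TensorProduct

universe u

/-- `Smooth` is local on the source for a jointly surjective family of open immersions -/
theorem smooth_of_openImmersion_cover {X S : Scheme.{u}} (f : X ⟶ S) {ι : Type*}
    (V : ι → Scheme.{u}) (j : ∀ i, V i ⟶ X) [∀ i, IsOpenImmersion (j i)]
    (hcov : ∀ x : X, ∃ i, x ∈ Set.range (j i).base) (h : ∀ i, Smooth (j i ≫ f)) : Smooth f := by
  refine IsZariskiLocalAtSource.of_iSup_eq_top (P := @Smooth) (fun i => (j i).opensRange) ?_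
    fun i => ?_
  · rw [eq_top_iff]
    rintro x -
    obtain ⟨i, hi⟩ := hcov x
    exact TopologicalSpace.Opens.mem_iSup.2 ⟨i, hi⟩
  · have := h i
    rw [← IsOpenImmersion.isoOfRangeEq_inv_fac (j i) (Scheme.Opens.ι _)
      (congr_arg TopologicalSpace.Opens.carrier (j i).opensRange.opensRange_ι.symm),
      Category.assoc, (MorphismProperty.cancel_left_of_respectsIso @Smooth)]
    exact h i

section Affine

variable (k : Type u) [CommRing k] (H : Type u) [CommRing H] [Algebra k H]

/-- `Algebra.Smooth k H → Smooth (Spec H → Spec k)` -/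
theorem smooth_Spec_of_algebraSmooth [Algebra.Smooth k H] :
    Smooth (Spec.map (CommRingCat.ofHom (algebraMap k H))) := by
  rw [HasRingHomProperty.Spec_iff (P := @Smooth)]
  show (algebraMap k H).Smooth
  rw [RingHom.smooth_algebraMap]
  infer_instance

/-- every open subscheme of `Spec H` is smooth over `Spec k` when `H` is a smooth `k`-algebra -/
theorem smooth_opens_of_algebraSmooth [Algebra.Smooth k H]
    (U : (Spec (CommRingCat.of H)).Opens) :
    Smooth (U.ι ≫ Spec.map (CommRingCat.ofHom (algebraMap k H))) := by
  have := smooth_Spec_of_algebraSmooth k H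
  infer_instance

end Affine

section Chart

variable (k : Type u) [CommRing k] [IsNoetherianRing k] {A : Type u} [CommRing A] [Algebra k A]
  [Algebra.FiniteType k A] {g : ℕ} (β : Fin g → A)

/-- **(P-Smooth), chart level**: under the square-zero lifting hypothesis for `β`-framed ideals, every open
subscheme of the chart `Spec (H k β)` is smooth over `Spec k`. -/
theorem smooth_chart_of_lift
    (hlift : ∀ (B : Type u) [CommRing B] [Algebra k B] (N : Ideal B), N ^ 2 = ⊥ →
      ∀ I₀ : Ideal ((B ⧸ N) ⊗[k] A), IsFramed β I₀ →
        ∃ I : Ideal (B ⊗[k] A), IsFramed β I ∧ push k A (Ideal.Quotient.mkₐ k N) I = I₀)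
    (U : (Spec (CommRingCat.of (H k β))).Opens) :
    Smooth (U.ι ≫ Spec.map (CommRingCat.ofHom (algebraMap k (H k β)))) := by
  have : Algebra.Smooth k (H k β) := H.smooth_of_lift k β hlift
  exact smooth_opens_of_algebraSmooth k (H k β) U

end Chart

end Fermat.Agent.S25lib.Hilb
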