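/-
S25lib / Hilb / CommonFrame  (helper5)  --  Project L (S25), for (P-Sep) / `Cover2`.
Over a field `K ⊇ k`, `k` INFINITE: two ideals of `A_K` of colength `g` are framed by a COMMON `k`-rational
`β : Fin g → A` (`exists_common_frame`, `exists_common_frame_of_isPt`).
-/
import Fermat.Agent.S25lib.Hilb.Local

set_option autoImplicit false

noncomputable section

namespace Fermat.Agent.S25lib.Hilb

open TensorProduct

universe u v w

/-- a nonzero polynomial over a field `K` has a non-root with coordinates in an infinite subfield `k` -/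
theorem exists_eval_ne_zero_of_infinite {k : Type u} [Field k] [Infinite k] {K : Type w} [Field K]
    [Algebra k K] {σ : Type*} (P : MvPolynomial σ K) (hP : P ≠ 0) :
    ∃ c : σ → k, MvPolynomial.eval (fun s => algebraMap k K (c s)) P ≠ 0 := by
  by_contra hcon
  simp only [not_exists, not_not] at hcon
  apply hP
  refine MvPolynomial.funext_set (fun _ => Set.range (algebraMap k K))
    (fun _ => Set.infinite_range_of_injective (algebraMap k K).injective) ?_
  intro x hx
  have hx' : ∀ s, ∃ c : k, algebraMap k K c = x s := fun s => hx s (Set.mem_univ s)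
  choose c hc using hx'
  have : x = fun s => algebraMap k K (c s) := funext fun s => (hc s).symm
  rw [this, hcon c, map_zero]

variable {k : Type u} [Field k] {A : Type v} [CommRing A] [Algebra k A] {g : ℕ}
variable {K : Type w} [Field K] [Algebra k K]

section Det

variable {β₁ : Fin g → A} {I : Ideal (K ⊗[k] A)} (h₁ : IsFramed β₁ I)

/-- the matrix of the `β₁`-coordinates of the classes of `1 ⊗ β i` -/
def IsFramed.coordMatrix (β : Fin g → A) : Matrix (Fin g) (Fin g) K :=
  Matrix.of fun i j => h₁.coord ((1 : K) ⊗ₜ[k] β i) j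

theorem IsFramed.coord_frameLift_eq (β : Fin g → A) (c : Fin g → K) :
    h₁.coord (frameLift β c) = Matrix.vecMul c (h₁.coordMatrix β) := by
  rw [frameLift_apply, map_sum]
  ext j
  simp [Matrix.vecMul, dotProduct, IsFramed.coordMatrix, Finset.sum_apply]

theorem IsFramed.frameMap_eq (β : Fin g → A) (c : Fin g → K) :
    frameMap β I c = h₁.equiv (Matrix.vecMul c (h₁.coordMatrix β)) := by
  rw [← h₁.coord_frameLift_eq, h₁.equiv_apply, h₁.mk_frameLift_coord, frameMap_apply]

/-- `β` frames `I` iff the matrix of its `β₁`-coordinates is invertible -/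
theorem IsFramed.isFramed_iff_det_ne_zero (β : Fin g → A) :
    IsFramed β I ↔ (h₁.coordMatrix β).det ≠ 0 := by
  have hfun : (frameMap β I : (Fin g → K) → _) =
      h₁.equiv ∘ (fun c => Matrix.vecMul c (h₁.coordMatrix β)) :=
    funext fun c => h₁.frameMap_eq β c
  unfold IsFramed
  rw [hfun, Function.Bijective.of_comp_iff' h₁.equiv.bijective, ← isUnit_iff_ne_zero,
    ← Matrix.isUnit_iff_isUnit_det]
  constructor
  · intro hb
    exact Matrix.vecMul_injective_iff_isUnit.1 hb.1
  · intro hu
    exact ⟨Matrix.vecMul_injective_iff_isUnit.2 hu, Matrix.vecMul_surjective_iff_isUnit.2 hu⟩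

end Det

section Common

open MvPolynomial

variable {β₁ : Fin g → A} {I : Ideal (K ⊗[k] A)} (h₁ : IsFramed β₁ I)

/-- the `k`-linear combinations `β_c i = ∑ l, c i l • γ l` of a finite family `γ` -/
def combo {n : Type*} [Fintype n] (γ : n → A) (c : Fin g × n → k) : Fin g → A :=
  fun i => ∑ l, c (i, l) • γ l

/-- the determinant polynomial: `det (X · Γ)`, `Γ l j = coord (1 ⊗ γ l) j` -/
def IsFramed.detPoly {n : Type*} [Fintype n] (γ : n → A) : MvPolynomial (Fin g × n) K :=
  ((Matrix.of fun (i : Fin g) (l : n) => (X (i, l) : MvPolynomial (Fin g × n) K)) *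
    (Matrix.of fun (l : n) (j : Fin g) =>
      (C (h₁.coord ((1 : K) ⊗ₜ[k] γ l) j) : MvPolynomial (Fin g × n) K))).det

theorem IsFramed.coordMatrix_combo {n : Type*} [Fintype n] (γ : n → A) (c : Fin g × n → k) :
    h₁.coordMatrix (combo γ c) =
      (Matrix.of fun (i : Fin g) (l : n) => algebraMap k K (c (i, l))) *
        (Matrix.of fun (l : n) (j : Fin g) => h₁.coord ((1 : K) ⊗ₜ[k] γ l) j) := by
  ext i j
  simp only [IsFramed.coordMatrix, combo, Matrix.of_apply, Matrix.mul_apply]
  rw [TensorProduct.tmul_sum, map_sum, Finset.sum_apply]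
  refine Finset.sum_congr rfl fun l _ => ?_
  rw [TensorProduct.tmul_smul, ← algebraMap_smul K (c (i, l)), map_smul, Pi.smul_apply,
    smul_eq_mul]

theorem IsFramed.eval_detPoly {n : Type*} [Fintype n] (γ : n → A) (c : Fin g × n → k) :
    MvPolynomial.eval (fun s => algebraMap k K (c s)) (h₁.detPoly γ) =
      (h₁.coordMatrix (combo γ c)).det := by
  rw [IsFramed.detPoly, RingHom.map_det, h₁.coordMatrix_combo]
  congr 1
  ext i j
  simp [Matrix.mul_apply, RingHom.mapMatrix_apply]

theorem IsFramed.coordMatrix_self : h₁.coordMatrix β₁ = 1 := by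
  ext i j
  simp only [IsFramed.coordMatrix, Matrix.of_apply]
  rw [← frameLift_single, h₁.coord_frameLift, Matrix.one_apply, Pi.single_apply]
  simp only [eq_comm]

theorem IsFramed.detPoly_ne_zero {n : Type*} [Fintype n] [DecidableEq n] (γ : n → A)
    (e : Fin g → n) (hγ : ∀ i, γ (e i) = β₁ i) :
    h₁.detPoly γ ≠ 0 := by
  intro h0
  let c₀ : Fin g × n → k := fun s => if e s.1 = s.2 then 1 else 0
  have h := h₁.eval_detPoly γ c₀
  rw [h0, map_zero] at h
  have hc : combo γ c₀ = β₁ := by
    ext i
    simp only [combo, c₀, ite_smul, one_smul, zero_smul]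
    rw [Finset.sum_ite_eq, if_pos (Finset.mem_univ _), hγ]
  rw [hc, h₁.coordMatrix_self, Matrix.det_one] at h
  exact zero_ne_one h

end Common

/-- **Common frame**: over a field `K ⊇ k` with `k` infinite, two framed ideals of `A_K` are framed by
a common `k`-rational `β`. -/
theorem exists_common_frame [Infinite k] {I I' : Ideal (K ⊗[k] A)} {β₁ β₂ : Fin g → A}
    (h₁ : IsFramed β₁ I) (h₂ : IsFramed β₂ I') :
    ∃ β : Fin g → A, IsFramed β I ∧ IsFramed β I' := by
  classical
  let γ : Fin g ⊕ Fin g → A := Sum.elim β₁ β₂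
  have hP : h₁.detPoly γ ≠ 0 :=
    h₁.detPoly_ne_zero γ Sum.inl (fun _ => rfl)
  have hP' : h₂.detPoly γ ≠ 0 :=
    h₂.detPoly_ne_zero γ Sum.inr (fun _ => rfl)
  obtain ⟨c, hc⟩ := exists_eval_ne_zero_of_infinite (k := k) (h₁.detPoly γ * h₂.detPoly γ)
    (mul_ne_zero hP hP')
  rw [map_mul, h₁.eval_detPoly, h₂.eval_detPoly] at hc
  exact ⟨combo γ c, (h₁.isFramed_iff_det_ne_zero _).2 (left_ne_zero_of_mul hc),
    (h₂.isFramed_iff_det_ne_zero _).2 (right_ne_zero_of_mul hc)⟩

/-- over a field, a point of the functor of ideals is framed by some `β` -/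
theorem IsPt.exists_isFramed {I : Ideal (K ⊗[k] A)} (h : IsPt g I) :
    ∃ β : Fin g → A, IsFramed β I := by
  let p : PrimeSpectrum K := ⟨⊥, Ideal.isPrime_bot⟩
  obtain ⟨β, -, hβ⟩ := exists_mem_framedLocus h (B := Set.univ) (by simp) p
  refine ⟨β, (isFramed_iff_framedLocus h).2 ?_⟩
  rw [Set.eq_univ_iff_forall]
  intro q
  have : q = p := Subsingleton.elim _ _
  rw [this]
  exact hβ

/-- **Common frame for two points of the functor of ideals over a field.** -/
theorem exists_common_frame_of_isPt [Infinite k] {I I' : Ideal (K ⊗[k] A)}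
    (h : IsPt g I) (h' : IsPt g I') :
    ∃ β : Fin g → A, IsFramed β I ∧ IsFramed β I' := by
  obtain ⟨β₁, h₁⟩ := h.exists_isFramed
  obtain ⟨β₂, h₂⟩ := h'.exists_isFramed
  exact exists_common_frame h₁ h₂

end Fermat.Agent.S25lib.Hilb
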